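import Fermat.Agent.Lib.Frob.Interfaces
import Fermat.Agent.Lib.VC.BaseChange

/-!
# Piece A3 of row S52 / shared lib `Frob`: long ↔ short Weierstrass form

`FrobRelationFin` (the frozen interface of piece A2, stated for ARBITRARY long Weierstrass curves
over `𝔽_ℓ`, `ℓ ≥ 5`) follows from its special case for short Weierstrass curves
`y² = x³ + A x + B`  (`FrobRelationFinShort`, resp. `FrobRelationFinShortLit`).

Main results:
* `frobRelationFin_of_short    : FrobRelationFinShort → FrobRelationFin`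
* `frobRelationFin_of_shortLit : FrobRelationFinShortLit → FrobRelationFin`
* `traceOfFrobenius_smul : (C • E).traceOfFrobenius = E.traceOfFrobenius`

(helper240)
-/

set_option autoImplicit false

open WeierstrassCurve WeierstrassCurve.Affine WeierstrassCurve.Affine.Point

namespace Fermat.Agent.Lib.Frob.A2.H240

open Fermat.Agent.Lib.Frob Fermat.Agent.Lib.VC

/-- Piece A2 restricted to curves in short Weierstrass form (`a₁ = a₂ = a₃ = 0`). -/
def FrobRelationFinShort : Prop :=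
  ∀ (ℓ : ℕ) [Fact ℓ.Prime], 5 ≤ ℓ → ∀ (E : WeierstrassCurve (ZMod ℓ)),
    E.a₁ = 0 → E.a₂ = 0 → E.a₃ = 0 → E.Δ ≠ 0 →
    ∀ (k : Type) [Field k] [Algebra (ZMod ℓ) k] [DecidableEq k] (P : (E⁄k).Point),
      frobPt ℓ E k (frobPt ℓ E k P) - E.traceOfFrobenius • frobPt ℓ E k P + (ℓ : ℤ) • P = 0

/-- Piece A2 for the literal curves `⟨0, 0, 0, A, B⟩`. -/
def FrobRelationFinShortLit : Prop :=
  ∀ (ℓ : ℕ) [Fact ℓ.Prime], 5 ≤ ℓ → ∀ (A B : ZMod ℓ),
    (⟨0, 0, 0, A, B⟩ : WeierstrassCurve (ZMod ℓ)).Δ ≠ 0 →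
    ∀ (k : Type) [Field k] [Algebra (ZMod ℓ) k] [DecidableEq k]
      (P : ((⟨0, 0, 0, A, B⟩ : WeierstrassCurve (ZMod ℓ))⁄k).Point),
      frobPt ℓ ⟨0, 0, 0, A, B⟩ k (frobPt ℓ ⟨0, 0, 0, A, B⟩ k P)
        - (⟨0, 0, 0, A, B⟩ : WeierstrassCurve (ZMod ℓ)).traceOfFrobenius
            • frobPt ℓ ⟨0, 0, 0, A, B⟩ k P + (ℓ : ℤ) • P = 0

theorem frobRelationFinShort_of_lit (h : FrobRelationFinShortLit) : FrobRelationFinShort := by
  intro ℓ _ hℓ E h₁ h₂ h₃ hΔ k _ _ _ P
  obtain ⟨a₁, a₂, a₃, a₄, a₆⟩ := E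
  simp only at h₁ h₂ h₃
  subst h₁ h₂ h₃
  exact h ℓ hℓ a₄ a₆ hΔ k P

/-- The number of points is invariant under a change of variables. -/
theorem card_smul {F : Type*} [Field F] (E : WeierstrassCurve F) (C : VariableChange F) :
    (C • E).card = E.card := by
  classical
  exact Nat.card_congr (vcPoint E C).toEquiv

/-- The trace of Frobenius is invariant under a change of variables. -/
theorem traceOfFrobenius_smul {F : Type*} [Field F] (E : WeierstrassCurve F)
    (C : VariableChange F) : (C • E).traceOfFrobenius = E.traceOfFrobenius := by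
  unfold WeierstrassCurve.traceOfFrobenius
  rw [card_smul]

/-- The Frobenius relation is invariant under a change of variables defined over `𝔽_ℓ`. -/
theorem frobRel_of_smul (ℓ : ℕ) [Fact ℓ.Prime] (E : WeierstrassCurve (ZMod ℓ))
    (C : VariableChange (ZMod ℓ)) (k : Type) [Field k] [Algebra (ZMod ℓ) k] [DecidableEq k]
    (h : ∀ P : ((C • E)⁄k).Point,
      frobPt ℓ (C • E) k (frobPt ℓ (C • E) k P)
        - (C • E).traceOfFrobenius • frobPt ℓ (C • E) k P + (ℓ : ℤ) • P = 0)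
    (Q : (E⁄k).Point) :
    frobPt ℓ E k (frobPt ℓ E k Q) - E.traceOfFrobenius • frobPt ℓ E k Q + (ℓ : ℤ) • Q = 0 := by
  have h' := h
  simp only [traceOfFrobenius_smul] at h'
  exact relation_transfer E C (FiniteField.frobeniusAlgHom (ZMod ℓ) k) E.traceOfFrobenius
    (ℓ : ℤ) h' Q

theorem two_ne_zero_zmod (ℓ : ℕ) [Fact ℓ.Prime] (hℓ : 5 ≤ ℓ) : (2 : ZMod ℓ) ≠ 0 := by
  intro h
  have h2 : ((2 : ℕ) : ZMod ℓ) = 0 := by exact_mod_cast h
  rw [ZMod.natCast_eq_zero_iff] at h2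
  have := Nat.le_of_dvd (by norm_num) h2
  omega

theorem three_ne_zero_zmod (ℓ : ℕ) [Fact ℓ.Prime] (hℓ : 5 ≤ ℓ) : (3 : ZMod ℓ) ≠ 0 := by
  intro h
  have h3 : ((3 : ℕ) : ZMod ℓ) = 0 := by exact_mod_cast h
  rw [ZMod.natCast_eq_zero_iff] at h3
  have := Nat.le_of_dvd (by norm_num) h3
  omega

/-- **A3**: the frozen interface `FrobRelationFin` follows from its short-Weierstrass case. -/
theorem frobRelationFin_of_short (h : FrobRelationFinShort) : FrobRelationFin := by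
  intro ℓ _ hℓ E hΔ k _ _ _ Q
  let _i2 : Invertible (2 : ZMod ℓ) := invertibleOfNonzero (two_ne_zero_zmod ℓ hℓ)
  let _i3 : Invertible (3 : ZMod ℓ) := invertibleOfNonzero (three_ne_zero_zmod ℓ hℓ)
  set C : VariableChange (ZMod ℓ) := E.toShortNF with hC
  have hNF : (C • E).IsShortNF := E.toShortNF_spec
  have hΔ' : (C • E).Δ ≠ 0 := by
    rw [variableChange_Δ]
    exact mul_ne_zero (pow_ne_zero _ (Units.ne_zero _)) hΔ
  exact frobRel_of_smul ℓ E C k
    (h ℓ hℓ (C • E) (a₁_of_isShortNF _) (a₂_of_isShortNF _) (a₃_of_isShortNF _) hΔ' k) Q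

theorem frobRelationFin_of_shortLit (h : FrobRelationFinShortLit) : FrobRelationFin :=
  frobRelationFin_of_short (frobRelationFinShort_of_lit h)

end Fermat.Agent.Lib.Frob.A2.H240
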